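import Mathlib.RingTheory.Valuation.ValuationSubring
import Mathlib.RingTheory.Polynomial.Cyclotomic.Basic
import Mathlib.RingTheory.Adjoin.Basic
import Mathlib.Tactic.FieldSimp
import Mathlib.Tactic.LinearCombination
import Mathlib.Tactic.Ring
import Mathlib.Tactic.GCongr

/-!
# Cell A2, route G, obligation C2 (COVER-SPLIT) — helper93 — Mathlib-only

Setting (`CoverSplit`): `V` a valuation subring of a field `F` whose maximal ideal is generated
by `w` and which is discrete (`∀ f, ∃ k, f * w ^ k ∈ V`); `m` invertible in `V`, `ζ ∈ F` a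
primitive `m`-th root of unity; `L = F[y_i]` with `y_i ^ m = g_i`, `g_i ∈ Vˣ`,
`g_i ≡ c_i ^ m mod w` (`c_i ∈ V`); `W` ANY valuation subring of `L` with `W ∩ F = V`.

Results (elementary: `W` is the localisation of `V[y_i]` at its centre; no étale / Dedekind /
Henselian API):

* `CoverSplit.exists_sub_mem`   : `W = V + w W`  (residue field of `W` = residue field of `V`);
* `CoverSplit.mul_inv_mem`      : `𝔪_W = w W`     (`e = 1`);
* `CoverSplit.eq_one_of_map_eq` : an `F`-automorphism `σ` of `L` with `σ W = W` is the identity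
  (the decomposition group is trivial: `V` splits completely in `L`).
-/

set_option autoImplicit false
set_option linter.style.haveILetI false

namespace Fermat.Agent.A2.H93

variable {F L : Type*} [Field F] [Field L] [Algebra F L]

/-- Hypotheses of COVER-SPLIT (see the module docstring). -/
structure CoverSplit (V : ValuationSubring F) (W : ValuationSubring L) (w : F) (m : ℕ) (ζ : F)
    {ι : Type*} (y : ι → L) (g c : ι → F) : Prop where
  ext : ∀ f : F, algebraMap F L f ∈ W ↔ f ∈ V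
  w_inv_notMem : w⁻¹ ∉ V
  w_gen : ∀ f ∈ V, f⁻¹ ∉ V → f * w⁻¹ ∈ V
  w_disc : ∀ f : F, ∃ k : ℕ, f * w ^ k ∈ V
  zeta : IsPrimitiveRoot ζ m
  m_pos : 0 < m
  m_inv : (m : F)⁻¹ ∈ V
  pow_eq : ∀ i, y i ^ m = algebraMap F L (g i)
  g_mem : ∀ i, g i ∈ V
  g_ne_zero : ∀ i, g i ≠ 0
  g_inv : ∀ i, (g i)⁻¹ ∈ V
  c_mem : ∀ i, c i ∈ V
  cong : ∀ i, (g i - c i ^ m) * w⁻¹ ∈ V
  gen : Algebra.adjoin F (Set.range y) = ⊤

section Val

variable (W : ValuationSubring L)

theorem val_lt_one_of_inv_notMem {x : L} (hx : x⁻¹ ∉ W) : W.valuation x < 1 := by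
  by_contra h
  rw [not_lt] at h
  apply hx
  rw [← W.valuation_le_one_iff, map_inv₀]
  exact inv_le_one_of_one_le₀ h

theorem inv_notMem_of_val_lt_one {x : L} (hx0 : x ≠ 0) (h : W.valuation x < 1) : x⁻¹ ∉ W := by
  intro hmem
  have h1 : W.valuation x⁻¹ ≤ 1 := (W.valuation_le_one_iff _).2 hmem
  have h2 : W.valuation x * W.valuation x⁻¹ = 1 := by
    rw [← map_mul, mul_inv_cancel₀ hx0, map_one]
  have h3 : W.valuation x * W.valuation x⁻¹ < 1 := by
    calc W.valuation x * W.valuation x⁻¹ ≤ W.valuation x * 1 := by gcongr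
      _ = W.valuation x := mul_one _
      _ < 1 := h
  rw [h2] at h3
  exact lt_irrefl _ h3

theorem val_eq_one_of_mem_of_inv_mem {x : L} (hx0 : x ≠ 0) (hx : x ∈ W) (hx' : x⁻¹ ∈ W) :
    W.valuation x = 1 := by
  have h1 : W.valuation x ≤ 1 := (W.valuation_le_one_iff _).2 hx
  rcases lt_or_eq_of_le h1 with h | h
  · exact absurd hx' (inv_notMem_of_val_lt_one W hx0 h)
  · exact h

theorem inv_mem_of_val_eq_one {x : L} (h : W.valuation x = 1) : x⁻¹ ∈ W := by
  rw [← W.valuation_le_one_iff, map_inv₀, h, inv_one]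

end Val

namespace CoverSplit

variable {V : ValuationSubring F} {W : ValuationSubring L} {w : F} {m : ℕ} {ζ : F}
  {ι : Type*} {y : ι → L} {g c : ι → F}

local notation "φ" => algebraMap F L

theorem w_mem (D : CoverSplit V W w m ζ y g c) : w ∈ V :=
  (V.mem_or_inv_mem w).resolve_right D.w_inv_notMem

theorem w_ne_zero (D : CoverSplit V W w m ζ y g c) : w ≠ 0 := by
  intro h
  apply D.w_inv_notMem
  rw [h, inv_zero]
  exact V.zero_mem

theorem φw_ne_zero (D : CoverSplit V W w m ζ y g c) : φ w ≠ 0 := by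
  intro h
  exact D.w_ne_zero ((algebraMap F L).injective (by rw [h, map_zero]))

theorem val_w_lt (D : CoverSplit V W w m ζ y g c) : W.valuation (φ w) < 1 := by
  apply val_lt_one_of_inv_notMem
  rw [← map_inv₀, D.ext]
  exact D.w_inv_notMem

theorem val_le_one (D : CoverSplit V W w m ζ y g c) {a : F} (ha : a ∈ V) :
    W.valuation (φ a) ≤ 1 :=
  (W.valuation_le_one_iff _).2 ((D.ext a).2 ha)

theorem val_eq_one (D : CoverSplit V W w m ζ y g c) {a : F} (ha : a ∈ V) (ha' : a⁻¹ ∈ V)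
    (ha0 : a ≠ 0) : W.valuation (φ a) = 1 := by
  apply val_eq_one_of_mem_of_inv_mem
  · intro h
    exact ha0 ((algebraMap F L).injective (by rw [h, map_zero]))
  · exact (D.ext a).2 ha
  · rw [← map_inv₀]; exact (D.ext _).2 ha'

/-- An element of `F` which is a non-unit at `W` is divisible by `w` in `V`. -/
theorem mul_inv_mem_of_val_lt (D : CoverSplit V W w m ζ y g c) {a : F}
    (ha : W.valuation (φ a) < 1) : a * w⁻¹ ∈ V := by
  by_cases ha0 : a = 0
  · rw [ha0, zero_mul]; exact V.zero_mem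
  have haV : a ∈ V := (D.ext a).1 ((W.valuation_le_one_iff _).1 ha.le)
  refine D.w_gen a haV ?_
  intro h
  have := D.val_eq_one haV h ha0
  rw [this] at ha
  exact lt_irrefl _ ha

/-- In `V`: an element with unit `m`-th power modulo `w`... more precisely, if `a ^ m ≡ u` mod
`w` with `u` a unit, then `a` is a unit. -/
theorem inv_mem_of_pow_cong (D : CoverSplit V W w m ζ y g c) {a u : F} (ha : a ∈ V)
    (hu' : u⁻¹ ∈ V) (hu0 : u ≠ 0) (h : (u - a ^ m) * w⁻¹ ∈ V) : a⁻¹ ∈ V := by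
  by_contra hcon
  -- `a ∈ 𝔪_V`, so `a = w a'`
  have h1 : a * w⁻¹ ∈ V := D.w_gen a ha hcon
  -- then `u = (u - a^m) + a^m ∈ w V`
  have h2 : u * w⁻¹ ∈ V := by
    have : u * w⁻¹ = (u - a ^ m) * w⁻¹ + a ^ (m - 1) * (a * w⁻¹) := by
      have : a ^ m = a ^ (m - 1) * a := by
        rw [← pow_succ, Nat.sub_add_cancel D.m_pos]
      rw [this]; ring
    rw [this]
    exact V.add_mem _ _ h (V.mul_mem _ _ (pow_mem ha _) h1)
  -- so `w⁻¹ = u⁻¹ (u w⁻¹) ∈ V`
  apply D.w_inv_notMem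
  have : w⁻¹ = u⁻¹ * (u * w⁻¹) := by
    field_simp
  rw [this]
  exact V.mul_mem _ _ hu' h2

theorem c_inv (D : CoverSplit V W w m ζ y g c) (i : ι) : (c i)⁻¹ ∈ V :=
  D.inv_mem_of_pow_cong (D.c_mem i) (D.g_inv i) (D.g_ne_zero i) (D.cong i)

/-! ### Roots of unity -/

theorem m_ne_zero (D : CoverSplit V W w m ζ y g c) : (m : F) ≠ 0 := by
  haveI : NeZero m := ⟨D.m_pos.ne'⟩
  exact (D.zeta.neZero').out

theorem root_mem (D : CoverSplit V W w m ζ y g c) {ξ : F} (hξ : ξ ^ m = 1) : ξ ∈ V := by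
  rcases V.mem_or_inv_mem ξ with h | h
  · exact h
  · have hξ0 : ξ ≠ 0 := by
      rintro rfl
      rw [zero_pow D.m_pos.ne'] at hξ
      exact zero_ne_one hξ
    have h1 : ξ = ξ⁻¹ ^ (m - 1) := by
      have h2 : ξ ^ (m - 1) * ξ = 1 := by
        rw [← pow_succ, Nat.sub_add_cancel D.m_pos, hξ]
      rw [inv_pow]
      exact eq_inv_of_mul_eq_one_right h2
    rw [h1]
    exact pow_mem h _

theorem root_inv_mem (D : CoverSplit V W w m ζ y g c) {ξ : F} (hξ : ξ ^ m = 1) : ξ⁻¹ ∈ V :=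
  D.root_mem (by rw [inv_pow, hξ, inv_one])

theorem root_ne_zero (D : CoverSplit V W w m ζ y g c) {ξ : F} (hξ : ξ ^ m = 1) : ξ ≠ 0 := by
  rintro rfl
  rw [zero_pow D.m_pos.ne'] at hξ
  exact zero_ne_one hξ

/-- `1 - ξ` is a unit of `V` for every `m`-th root of unity `ξ ≠ 1`. -/
theorem one_sub_root_inv_mem (D : CoverSplit V W w m ζ y g c) {ξ : F} (hξ : ξ ^ m = 1)
    (hξ1 : ξ ≠ 1) : (1 - ξ)⁻¹ ∈ V := by
  have hsum : ∑ k ∈ Finset.range m, ξ ^ k = 0 := by
    have h := mul_geom_sum ξ m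
    rw [hξ, sub_self] at h
    exact (mul_eq_zero.1 h).resolve_left (sub_ne_zero.2 hξ1)
  have hq : (m : F) = (1 - ξ) * ∑ k ∈ Finset.range m, ∑ j ∈ Finset.range k, ξ ^ j := by
    calc (m : F) = ∑ k ∈ Finset.range m, (1 - ξ ^ k) := by
          rw [Finset.sum_sub_distrib, hsum]; simp
      _ = ∑ k ∈ Finset.range m, (1 - ξ) * ∑ j ∈ Finset.range k, ξ ^ j := by
          refine Finset.sum_congr rfl fun k _ => ?_
          have h := mul_geom_sum ξ k
          linear_combination h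
      _ = (1 - ξ) * ∑ k ∈ Finset.range m, ∑ j ∈ Finset.range k, ξ ^ j := by
          rw [Finset.mul_sum]
  have hqV : (∑ k ∈ Finset.range m, ∑ j ∈ Finset.range k, ξ ^ j) ∈ V :=
    sum_mem (fun k _ => sum_mem (fun j _ => pow_mem (D.root_mem hξ) j))
  have h1 : (1 - ξ)⁻¹ = (∑ k ∈ Finset.range m, ∑ j ∈ Finset.range k, ξ ^ j) * (m : F)⁻¹ := by
    apply inv_eq_of_mul_eq_one_right
    rw [← mul_assoc, ← hq, mul_inv_cancel₀ D.m_ne_zero]
  rw [h1]
  exact V.mul_mem _ _ hqV D.m_inv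

/-- every `m`-th root of unity of `L` comes from `F` -/
theorem exists_root_eq (D : CoverSplit V W w m ζ y g c) {ξ : L} (hξ : ξ ^ m = 1) :
    ∃ ξ₀ : F, ξ₀ ^ m = 1 ∧ φ ξ₀ = ξ := by
  haveI : NeZero m := ⟨D.m_pos.ne'⟩
  have hζL : IsPrimitiveRoot (φ ζ) m := D.zeta.map_of_injective (algebraMap F L).injective
  obtain ⟨i, -, hi⟩ := hζL.eq_pow_of_pow_eq_one hξ
  refine ⟨ζ ^ i, ?_, by rw [map_pow, hi]⟩
  rw [← pow_mul, mul_comm, pow_mul, D.zeta.pow_eq_one, one_pow]

/-! ### The generators -/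

theorem val_y (D : CoverSplit V W w m ζ y g c) (i : ι) : W.valuation (y i) = 1 := by
  have h : W.valuation (y i) ^ m = 1 := by
    rw [← map_pow, D.pow_eq]
    exact D.val_eq_one (D.g_mem i) (D.g_inv i) (D.g_ne_zero i)
  exact (pow_eq_one_iff_left D.m_pos.ne').mp h

theorem y_mem (D : CoverSplit V W w m ζ y g c) (i : ι) : y i ∈ W :=
  (W.valuation_le_one_iff _).1 (D.val_y i).le

theorem val_pow_sub (D : CoverSplit V W w m ζ y g c) (i : ι) :
    W.valuation (y i ^ m - φ (c i) ^ m) < 1 := by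
  rw [D.pow_eq, ← map_pow, ← map_sub]
  have h : g i - c i ^ m = (g i - c i ^ m) * w⁻¹ * w := by
    have := D.w_ne_zero
    field_simp
  rw [h, map_mul, map_mul]
  calc W.valuation (φ ((g i - c i ^ m) * w⁻¹)) * W.valuation (φ w)
      ≤ 1 * W.valuation (φ w) := by
        gcongr
        exact D.val_le_one (D.cong i)
    _ < 1 := by rw [one_mul]; exact D.val_w_lt

/-- The centre: `y_i ≡ ξ c_i` modulo `𝔪_W` for some `m`-th root of unity `ξ ∈ F`. -/
theorem exists_root_val_lt (D : CoverSplit V W w m ζ y g c) (i : ι) :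
    ∃ ξ₀ : F, ξ₀ ^ m = 1 ∧ W.valuation (y i - φ (ξ₀ * c i)) < 1 := by
  classical
  have hζL : IsPrimitiveRoot (φ ζ) m := D.zeta.map_of_injective (algebraMap F L).injective
  have hprod := hζL.pow_sub_pow_eq_prod_sub_mul (y i) (φ (c i)) D.m_pos
  have hlhs := D.val_pow_sub i
  by_contra hcon
  push Not at hcon
  have hall : ∀ ξ ∈ Polynomial.nthRootsFinset m (1 : L),
      W.valuation (y i - ξ * φ (c i)) = 1 := by
    intro ξ hξ
    rw [Polynomial.mem_nthRootsFinset D.m_pos] at hξ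
    obtain ⟨ξ₀, h1, rfl⟩ := D.exists_root_eq hξ
    have hle : W.valuation (y i - φ ξ₀ * φ (c i)) ≤ 1 :=
      (W.valuation_le_one_iff _).2 (sub_mem (D.y_mem i)
        (mul_mem ((D.ext _).2 (D.root_mem h1)) ((D.ext _).2 (D.c_mem i))))
    have h2 := hcon ξ₀ h1
    rw [map_mul] at h2
    exact le_antisymm hle h2
  rw [hprod, map_prod, Finset.prod_eq_one hall] at hlhs
  exact lt_irrefl _ hlhs

/-- The other roots give units of `W`. -/
theorem val_sub_root_eq_one (D : CoverSplit V W w m ζ y g c) (i : ι) {ξ₀ η₀ : F}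
    (hξ : ξ₀ ^ m = 1) (hη : η₀ ^ m = 1) (hne : η₀ ≠ ξ₀)
    (h : W.valuation (y i - φ (ξ₀ * c i)) < 1) : W.valuation (y i - φ (η₀ * c i)) = 1 := by
  have hξ0 := D.root_ne_zero hξ
  have hc0 : c i ≠ 0 := by
    intro h0
    have h1 := D.cong i
    rw [h0, zero_pow D.m_pos.ne', sub_zero] at h1
    apply D.w_inv_notMem
    have : w⁻¹ = (g i)⁻¹ * (g i * w⁻¹) := by
      have := D.g_ne_zero i
      field_simp
    rw [this]
    exact V.mul_mem _ _ (D.g_inv i) h1
  -- the root of unity `ρ = η₀ / ξ₀ ≠ 1`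
  have hρ : (η₀ * ξ₀⁻¹) ^ m = 1 := by rw [mul_pow, inv_pow, hξ, hη, inv_one, mul_one]
  have hρ1 : η₀ * ξ₀⁻¹ ≠ 1 := by
    intro h1
    apply hne
    field_simp at h1
    exact h1
  have hunit : (1 - η₀ * ξ₀⁻¹)⁻¹ ∈ V := D.one_sub_root_inv_mem hρ hρ1
  have hd0 : (ξ₀ - η₀) * c i ≠ 0 :=
    mul_ne_zero (sub_ne_zero.2 (Ne.symm hne)) hc0
  have hdV : (ξ₀ - η₀) * c i ∈ V :=
    V.mul_mem _ _ (sub_mem (D.root_mem hξ) (D.root_mem hη)) (D.c_mem i)
  have hdV' : ((ξ₀ - η₀) * c i)⁻¹ ∈ V := by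
    have : ((ξ₀ - η₀) * c i)⁻¹ = (1 - η₀ * ξ₀⁻¹)⁻¹ * ξ₀⁻¹ * (c i)⁻¹ := by
      have h1 : 1 - η₀ * ξ₀⁻¹ ≠ 0 := sub_ne_zero.2 (Ne.symm hρ1)
      have h2 : ξ₀ - η₀ ≠ 0 := sub_ne_zero.2 (Ne.symm hne)
      field_simp
    rw [this]
    exact V.mul_mem _ _ (V.mul_mem _ _ hunit (D.root_inv_mem hξ)) (D.c_inv i)
  have hv : W.valuation (φ ((ξ₀ - η₀) * c i)) = 1 := D.val_eq_one hdV hdV' hd0
  have hsum : y i - φ (η₀ * c i) = (y i - φ (ξ₀ * c i)) + φ ((ξ₀ - η₀) * c i) := by
    simp only [map_mul, map_sub]; ring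
  rw [hsum, Valuation.map_add_eq_of_lt_right]
  · exact hv
  · rw [hv]; exact h

section Rings

variable (V W y)

/-- `V[y_i] ⊆ L`. -/
def ringB : Subring L := Subring.closure ((algebraMap F L) '' (V : Set F) ∪ Set.range y)

/-- The localisation of `V[y_i]` at its centre in `W`. -/
def ringB' : Subring L :=
  Subring.closure ((ringB V y : Set L) ∪ {x | ∃ s ∈ ringB V y, W.valuation s = 1 ∧ x = s⁻¹})

end Rings

theorem algebraMap_mem_ringB {a : F} (ha : a ∈ V) : φ a ∈ ringB V y :=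
  Subring.subset_closure (Or.inl ⟨a, ha, rfl⟩)

theorem y_mem_ringB (i : ι) : y i ∈ ringB V y :=
  Subring.subset_closure (Or.inr ⟨i, rfl⟩)

theorem ringB_le_ringB' : ringB V y ≤ ringB' V W y :=
  fun _ hx => Subring.subset_closure (Or.inl hx)

theorem inv_mem_ringB' {s : L} (hs : s ∈ ringB V y) (hv : W.valuation s = 1) :
    s⁻¹ ∈ ringB' V W y :=
  Subring.subset_closure (Or.inr ⟨s, hs, hv, rfl⟩)

theorem ringB_le (D : CoverSplit V W w m ζ y g c) : ringB V y ≤ W.toSubring := by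
  rw [ringB, Subring.closure_le]
  rintro x (⟨a, ha, rfl⟩ | ⟨i, rfl⟩)
  · exact (D.ext a).2 ha
  · exact D.y_mem i

theorem ringB'_le (D : CoverSplit V W w m ζ y g c) : ringB' V W y ≤ W.toSubring := by
  rw [ringB', Subring.closure_le]
  rintro x (hx | ⟨s, -, hv, rfl⟩)
  · exact D.ringB_le hx
  · exact inv_mem_of_val_eq_one W hv

/-- `y_i - ξ c_i = w · t` with `t` in the localisation. -/
theorem exists_unit_mul (D : CoverSplit V W w m ζ y g c) (i : ι) {ξ₀ : F} (hξ : ξ₀ ^ m = 1)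
    (h : W.valuation (y i - φ (ξ₀ * c i)) < 1) :
    ∃ u ∈ ringB V y, W.valuation u = 1 ∧ (y i - φ (ξ₀ * c i)) * u = φ (g i - c i ^ m) := by
  classical
  have hζL : IsPrimitiveRoot (φ ζ) m := D.zeta.map_of_injective (algebraMap F L).injective
  have hprod := hζL.pow_sub_pow_eq_prod_sub_mul (y i) (φ (c i)) D.m_pos
  have hmem : φ ξ₀ ∈ Polynomial.nthRootsFinset m (1 : L) := by
    rw [Polynomial.mem_nthRootsFinset D.m_pos, ← map_pow, hξ, map_one]
  refine ⟨∏ η ∈ (Polynomial.nthRootsFinset m (1 : L)).erase (φ ξ₀), (y i - η * φ (c i)),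
    ?_, ?_, ?_⟩
  · refine Subring.prod_mem _ fun η hη => ?_
    have hη' := Finset.mem_of_mem_erase hη
    rw [Polynomial.mem_nthRootsFinset D.m_pos] at hη'
    obtain ⟨η₀, h1, rfl⟩ := D.exists_root_eq hη'
    exact Subring.sub_mem _ (y_mem_ringB i)
      (Subring.mul_mem _ (algebraMap_mem_ringB (D.root_mem h1)) (algebraMap_mem_ringB (D.c_mem i)))
  · rw [map_prod]
    refine Finset.prod_eq_one fun η hη => ?_
    have hη' := Finset.mem_of_mem_erase hη
    have hne := Finset.ne_of_mem_erase hη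
    rw [Polynomial.mem_nthRootsFinset D.m_pos] at hη'
    obtain ⟨η₀, h1, rfl⟩ := D.exists_root_eq hη'
    have hne' : η₀ ≠ ξ₀ := fun h0 => hne (by rw [h0])
    have := D.val_sub_root_eq_one i hξ h1 hne' h
    rwa [map_mul] at this
  · rw [map_mul, Finset.mul_prod_erase _ (fun η => y i - η * φ (c i)) hmem, ← hprod, D.pow_eq,
      map_sub, map_pow]

/-- The property `x ∈ V + w B'`. -/
def Good (V : ValuationSubring F) (W : ValuationSubring L) (w : F) (y : ι → L) (x : L) : Prop :=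
  ∃ a ∈ V, ∃ t ∈ ringB' V W y, x = algebraMap F L a + algebraMap F L w * t

theorem good_algebraMap {a : F} (ha : a ∈ V) : Good V W w y (φ a) :=
  ⟨a, ha, 0, Subring.zero_mem _, by rw [mul_zero, add_zero]⟩

theorem good_add {x x' : L} (hx : Good V W w y x) (hx' : Good V W w y x') :
    Good V W w y (x + x') := by
  obtain ⟨a, ha, t, ht, rfl⟩ := hx
  obtain ⟨a', ha', t', ht', rfl⟩ := hx'
  exact ⟨a + a', V.add_mem _ _ ha ha', t + t', Subring.add_mem _ ht ht', by
    rw [map_add]; ring⟩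

theorem good_neg {x : L} (hx : Good V W w y x) : Good V W w y (-x) := by
  obtain ⟨a, ha, t, ht, rfl⟩ := hx
  exact ⟨-a, V.neg_mem _ ha, -t, Subring.neg_mem _ ht, by rw [map_neg]; ring⟩

theorem good_mul (D : CoverSplit V W w m ζ y g c) {x x' : L} (hx : Good V W w y x)
    (hx' : Good V W w y x') : Good V W w y (x * x') := by
  obtain ⟨a, ha, t, ht, rfl⟩ := hx
  obtain ⟨a', ha', t', ht', rfl⟩ := hx'
  have hB : ∀ {b : F}, b ∈ V → φ b ∈ ringB' V W y :=
    fun hb => ringB_le_ringB' (algebraMap_mem_ringB hb)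
  refine ⟨a * a', V.mul_mem _ _ ha ha', φ a * t' + φ a' * t + φ w * t * t', ?_, ?_⟩
  · exact Subring.add_mem _ (Subring.add_mem _ (Subring.mul_mem _ (hB ha) ht')
      (Subring.mul_mem _ (hB ha') ht))
      (Subring.mul_mem _ (Subring.mul_mem _ (hB D.w_mem) ht) ht')
  · rw [map_mul]; ring

theorem good_y (D : CoverSplit V W w m ζ y g c) (i : ι) : Good V W w y (y i) := by
  obtain ⟨ξ₀, hξ, h⟩ := D.exists_root_val_lt i
  obtain ⟨u, huB, hu, hmul⟩ := D.exists_unit_mul i hξ h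
  have hu0 : u ≠ 0 := by
    rintro rfl
    rw [map_zero] at hu
    exact zero_ne_one hu
  refine ⟨ξ₀ * c i, V.mul_mem _ _ (D.root_mem hξ) (D.c_mem i),
    φ ((g i - c i ^ m) * w⁻¹) * u⁻¹, ?_, ?_⟩
  · exact Subring.mul_mem _ (ringB_le_ringB' (algebraMap_mem_ringB (D.cong i)))
      (inv_mem_ringB' huB hu)
  · have h1 : y i - φ (ξ₀ * c i) = φ (g i - c i ^ m) * u⁻¹ := by
      rw [← hmul, mul_assoc, mul_inv_cancel₀ hu0, mul_one]
    have h2 : φ (g i - c i ^ m) = φ w * φ ((g i - c i ^ m) * w⁻¹) := by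
      rw [← map_mul]
      congr 1
      have := D.w_ne_zero
      field_simp
    rw [h2] at h1
    rw [← mul_assoc, ← h1]; ring

theorem good_of_mem_ringB (D : CoverSplit V W w m ζ y g c) {x : L} (hx : x ∈ ringB V y) :
    Good V W w y x := by
  induction hx using Subring.closure_induction with
  | mem x hx =>
    rcases hx with ⟨a, ha, rfl⟩ | ⟨i, rfl⟩
    · exact good_algebraMap ha
    · exact D.good_y i
  | zero => simpa using good_algebraMap (V := V) (W := W) (w := w) (y := y) V.zero_mem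
  | one => simpa using good_algebraMap (V := V) (W := W) (w := w) (y := y) V.one_mem
  | add x x' _ _ hx hx' => exact good_add hx hx'
  | neg x _ hx => exact good_neg hx
  | mul x x' _ _ hx hx' => exact D.good_mul hx hx'

/-- If `x = a + w t` is a unit of `W` then `a` is a unit of `V`. -/
theorem inv_mem_of_good_of_val_eq_one (D : CoverSplit V W w m ζ y g c) {a : F} (ha : a ∈ V)
    {t x : L} (ht : t ∈ W) (hx : x = φ a + φ w * t) (hv : W.valuation x = 1) :
    a ≠ 0 ∧ a⁻¹ ∈ V := by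
  have hwt : W.valuation (φ w * t) < 1 := by
    rw [map_mul]
    calc W.valuation (φ w) * W.valuation t ≤ W.valuation (φ w) * 1 := by
          gcongr
          exact (W.valuation_le_one_iff _).2 ht
      _ = W.valuation (φ w) := mul_one _
      _ < 1 := D.val_w_lt
  have hva : W.valuation (φ a) = 1 := by
    have h1 : φ a = x + -(φ w * t) := by rw [hx]; ring
    rw [h1, Valuation.map_add_eq_of_lt_left]
    · exact hv
    · rw [Valuation.map_neg, hv]; exact hwt
  have ha0 : a ≠ 0 := by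
    rintro rfl
    rw [map_zero, map_zero] at hva
    exact zero_ne_one hva
  refine ⟨ha0, ?_⟩
  rw [← D.ext, map_inv₀]
  exact inv_mem_of_val_eq_one W hva

/-- If `x = a + w t` is a non-unit of `W` then `w ∣ a` in `V`. -/
theorem mul_inv_mem_of_good_of_val_lt (D : CoverSplit V W w m ζ y g c) {a : F}
    {t x : L} (ht : t ∈ W) (hx : x = φ a + φ w * t) (hv : W.valuation x < 1) :
    a * w⁻¹ ∈ V := by
  have hwt : W.valuation (φ w * t) < 1 := by
    rw [map_mul]
    calc W.valuation (φ w) * W.valuation t ≤ W.valuation (φ w) * 1 := by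
          gcongr
          exact (W.valuation_le_one_iff _).2 ht
      _ = W.valuation (φ w) := mul_one _
      _ < 1 := D.val_w_lt
  apply D.mul_inv_mem_of_val_lt
  have h1 : φ a = x + -(φ w * t) := by rw [hx]; ring
  rw [h1]
  refine lt_of_le_of_lt (Valuation.map_add _ _ _) (max_lt hv ?_)
  rw [Valuation.map_neg]; exact hwt

theorem good_inv (D : CoverSplit V W w m ζ y g c) {s : L} (hs : s ∈ ringB V y)
    (hv : W.valuation s = 1) : Good V W w y s⁻¹ := by
  obtain ⟨a, ha, t, ht, hst⟩ := D.good_of_mem_ringB hs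
  obtain ⟨ha0, ha'⟩ := D.inv_mem_of_good_of_val_eq_one ha (D.ringB'_le ht) hst hv
  have hs0 : s ≠ 0 := by
    rintro rfl
    rw [map_zero] at hv
    exact zero_ne_one hv
  have hφa0 : φ a ≠ 0 := fun h => ha0 ((algebraMap F L).injective (by rw [h, map_zero]))
  refine ⟨a⁻¹, ha', -(t * s⁻¹ * φ a⁻¹), ?_, ?_⟩
  · exact Subring.neg_mem _ (Subring.mul_mem _ (Subring.mul_mem _ ht (inv_mem_ringB' hs hv))
      (ringB_le_ringB' (algebraMap_mem_ringB ha')))
  · rw [map_inv₀]
    have h1 : φ w * t = s - φ a := by rw [hst]; ring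
    have : φ w * -(t * s⁻¹ * (φ a)⁻¹) = -((φ w * t) * s⁻¹ * (φ a)⁻¹) := by ring
    rw [this, h1]
    field_simp
    ring

theorem good_of_mem_ringB' (D : CoverSplit V W w m ζ y g c) {x : L} (hx : x ∈ ringB' V W y) :
    Good V W w y x := by
  induction hx using Subring.closure_induction with
  | mem x hx =>
    rcases hx with hx | ⟨s, hs, hv, rfl⟩
    · exact D.good_of_mem_ringB hx
    · exact D.good_inv hs hv
  | zero => simpa using good_algebraMap (V := V) (W := W) (w := w) (y := y) V.zero_mem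
  | one => simpa using good_algebraMap (V := V) (W := W) (w := w) (y := y) V.one_mem
  | add x x' _ _ hx hx' => exact good_add hx hx'
  | neg x _ hx => exact good_neg hx
  | mul x x' _ _ hx hx' => exact D.good_mul hx hx'

/-- Clearing denominators: `w ^ k x ∈ V[y_i]` for `k ≫ 0`. -/
theorem exists_pow_mul_mem_ringB (D : CoverSplit V W w m ζ y g c) (x : L) :
    ∃ k : ℕ, φ w ^ k * x ∈ ringB V y := by
  have hx : x ∈ Algebra.adjoin F (Set.range y) := by rw [D.gen]; trivial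
  have hwB : φ w ∈ ringB V y := algebraMap_mem_ringB D.w_mem
  induction hx using Algebra.adjoin_induction with
  | mem x hx =>
    obtain ⟨i, rfl⟩ := hx
    exact ⟨0, by rw [pow_zero, one_mul]; exact y_mem_ringB i⟩
  | algebraMap a =>
    obtain ⟨k, hk⟩ := D.w_disc a
    refine ⟨k, ?_⟩
    have : φ w ^ k * φ a = φ (a * w ^ k) := by rw [map_mul, map_pow]; ring
    rw [this]
    exact algebraMap_mem_ringB hk
  | add x x' _ _ hx hx' =>
    obtain ⟨k, hk⟩ := hx
    obtain ⟨k', hk'⟩ := hx'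
    refine ⟨k + k', ?_⟩
    have : φ w ^ (k + k') * (x + x') = φ w ^ k' * (φ w ^ k * x) + φ w ^ k * (φ w ^ k' * x') := by
      rw [pow_add]; ring
    rw [this]
    exact Subring.add_mem _ (Subring.mul_mem _ (Subring.pow_mem _ hwB _) hk)
      (Subring.mul_mem _ (Subring.pow_mem _ hwB _) hk')
  | mul x x' _ _ hx hx' =>
    obtain ⟨k, hk⟩ := hx
    obtain ⟨k', hk'⟩ := hx'
    refine ⟨k + k', ?_⟩
    have : φ w ^ (k + k') * (x * x') = (φ w ^ k * x) * (φ w ^ k' * x') := by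
      rw [pow_add]; ring
    rw [this]
    exact Subring.mul_mem _ hk hk'

/-- Descending induction: dividing by `w` stays in the localisation as long as we stay in `W`. -/
theorem mem_ringB'_of_mul_inv_pow_mem (D : CoverSplit V W w m ζ y g c) :
    ∀ (k : ℕ) (z : L), z ∈ ringB' V W y → z * (φ w)⁻¹ ^ k ∈ W → z * (φ w)⁻¹ ^ k ∈ ringB' V W y := by
  intro k
  induction k with
  | zero =>
    intro z hz _
    rwa [pow_zero, mul_one]
  | succ k ih =>
    intro z hz hzW
    have hw0 := D.φw_ne_zero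
    -- `z` is a non-unit of `W`
    have hzlt : W.valuation z < 1 := by
      have h1 : z = z * (φ w)⁻¹ ^ (k + 1) * φ w ^ (k + 1) := by
        rw [inv_pow, mul_assoc, inv_mul_cancel₀ (pow_ne_zero _ hw0), mul_one]
      rw [h1, map_mul, map_pow]
      calc W.valuation (z * (φ w)⁻¹ ^ (k + 1)) * W.valuation (φ w) ^ (k + 1)
          ≤ 1 * W.valuation (φ w) ^ (k + 1) := by
            gcongr
            exact (W.valuation_le_one_iff _).2 hzW
        _ = W.valuation (φ w) ^ (k + 1) := one_mul _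
        _ < 1 := pow_lt_one₀ zero_le D.val_w_lt (Nat.succ_ne_zero k)
    obtain ⟨a, ha, t, ht, hzt⟩ := D.good_of_mem_ringB' hz
    have haw : a * w⁻¹ ∈ V := D.mul_inv_mem_of_good_of_val_lt (D.ringB'_le ht) hzt hzlt
    -- `z / w = a / w + t`
    have hz1 : z * (φ w)⁻¹ = φ (a * w⁻¹) + t := by
      rw [hzt, map_mul, map_inv₀]
      field_simp
    have hz1B : z * (φ w)⁻¹ ∈ ringB' V W y := by
      rw [hz1]
      exact Subring.add_mem _ (ringB_le_ringB' (algebraMap_mem_ringB haw)) ht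
    have heq : z * (φ w)⁻¹ ^ (k + 1) = z * (φ w)⁻¹ * (φ w)⁻¹ ^ k := by
      rw [pow_succ]; ring
    rw [heq] at hzW ⊢
    exact ih _ hz1B hzW

/-- `W` is the localisation of `V[y_i]` at its centre. -/
theorem mem_ringB' (D : CoverSplit V W w m ζ y g c) {x : L} (hx : x ∈ W) : x ∈ ringB' V W y := by
  obtain ⟨k, hk⟩ := D.exists_pow_mul_mem_ringB x
  have hw0 := D.φw_ne_zero
  have h1 : x = (φ w ^ k * x) * (φ w)⁻¹ ^ k := by
    rw [inv_pow, mul_comm (φ w ^ k) x, mul_assoc, mul_inv_cancel₀ (pow_ne_zero _ hw0), mul_one]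
  rw [h1]
  refine D.mem_ringB'_of_mul_inv_pow_mem k _ (ringB_le_ringB' hk) ?_
  rw [← h1]
  exact hx

/-- **COVER-SPLIT (2)**: `W = V + w W`: the residue field of `W` is that of `V`. -/
theorem exists_sub_mem (D : CoverSplit V W w m ζ y g c) {x : L} (hx : x ∈ W) :
    ∃ a ∈ V, (x - φ a) * (φ w)⁻¹ ∈ W := by
  obtain ⟨a, ha, t, ht, hxt⟩ := D.good_of_mem_ringB' (D.mem_ringB' hx)
  refine ⟨a, ha, ?_⟩
  have hw0 := D.φw_ne_zero
  have : (x - φ a) * (φ w)⁻¹ = t := by
    rw [hxt]; field_simp; ring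
  rw [this]
  exact D.ringB'_le ht

/-- **COVER-SPLIT (1)**: `𝔪_W = w W` (`e = 1`). -/
theorem mul_inv_mem (D : CoverSplit V W w m ζ y g c) {x : L} (hx : x ∈ W) (hx' : x⁻¹ ∉ W) :
    x * (φ w)⁻¹ ∈ W := by
  obtain ⟨a, ha, t, ht, hxt⟩ := D.good_of_mem_ringB' (D.mem_ringB' hx)
  have hlt : W.valuation x < 1 := val_lt_one_of_inv_notMem W hx'
  have haw : a * w⁻¹ ∈ V := D.mul_inv_mem_of_good_of_val_lt (D.ringB'_le ht) hxt hlt
  have hw0 := D.φw_ne_zero
  have : x * (φ w)⁻¹ = φ (a * w⁻¹) + t := by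
    rw [hxt, map_mul, map_inv₀]
    field_simp
  rw [this]
  exact W.add_mem _ _ ((D.ext _).2 haw) (D.ringB'_le ht)

/-! ### The decomposition group is trivial -/

/-- A ring endomorphism of `L` fixing `F` and mapping `𝔪_W` into itself fixes every `y_i`. -/
theorem map_y_eq (D : CoverSplit V W w m ζ y g c) (σ : L →+* L) (hσF : ∀ a : F, σ (φ a) = φ a)
    (hσ : ∀ x, W.valuation x < 1 → W.valuation (σ x) < 1) (i : ι) : σ (y i) = y i := by
  have hy0 : y i ≠ 0 := by
    intro h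
    have := D.val_y i
    rw [h, map_zero] at this
    exact zero_ne_one this
  -- `σ y = ρ y` with `ρ` a root of unity of `F`
  have hpow : (σ (y i) * (y i)⁻¹) ^ m = 1 := by
    rw [mul_pow, ← map_pow, D.pow_eq, hσF, inv_pow, D.pow_eq]
    exact mul_inv_cancel₀ (by
      intro h
      exact D.g_ne_zero i ((algebraMap F L).injective (by rw [h, map_zero])))
  obtain ⟨ρ, hρ, hρy⟩ := D.exists_root_eq hpow
  have hσy : σ (y i) = φ ρ * y i := by
    rw [hρy, mul_assoc, inv_mul_cancel₀ hy0, mul_one]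
  by_cases hρ1 : ρ = 1
  · rw [hσy, hρ1, map_one, one_mul]
  exfalso
  obtain ⟨ξ₀, hξ, h⟩ := D.exists_root_val_lt i
  -- `(ρ - 1) ξ₀ c ∈ 𝔪_W`
  have h1 : W.valuation (σ (y i - φ (ξ₀ * c i))) < 1 := hσ _ h
  rw [map_sub, hσF, hσy] at h1
  have h2 : W.valuation (φ ρ * (y i - φ (ξ₀ * c i))) < 1 := by
    rw [map_mul]
    calc W.valuation (φ ρ) * W.valuation (y i - φ (ξ₀ * c i))
        ≤ 1 * W.valuation (y i - φ (ξ₀ * c i)) := by
          gcongr
          exact D.val_le_one (D.root_mem hρ)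
      _ = W.valuation (y i - φ (ξ₀ * c i)) := one_mul _
      _ < 1 := h
  have h3 : φ ((ρ - 1) * (ξ₀ * c i)) =
      (φ ρ * y i - φ (ξ₀ * c i)) + -(φ ρ * (y i - φ (ξ₀ * c i))) := by
    simp only [map_mul, map_sub, map_one]; ring
  have h4 : W.valuation (φ ((ρ - 1) * (ξ₀ * c i))) < 1 := by
    rw [h3]
    refine lt_of_le_of_lt (Valuation.map_add _ _ _) (max_lt h1 ?_)
    rw [Valuation.map_neg]; exact h2
  -- but it is a unit of `V`
  have hu : ((ρ - 1) * (ξ₀ * c i))⁻¹ ∈ V := by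
    have h5 : (1 - ρ)⁻¹ ∈ V := D.one_sub_root_inv_mem hρ hρ1
    have : ((ρ - 1) * (ξ₀ * c i))⁻¹ = -((1 - ρ)⁻¹ * (ξ₀⁻¹ * (c i)⁻¹)) := by
      have e1 : ρ - 1 = -(1 - ρ) := by ring
      rw [e1, neg_mul, inv_neg, mul_inv, mul_inv]
    rw [this]
    exact V.neg_mem _ (V.mul_mem _ _ h5 (V.mul_mem _ _ (D.root_inv_mem hξ) (D.c_inv i)))
  have hc0 : c i ≠ 0 := by
    intro h0
    have h6 := D.cong i
    rw [h0, zero_pow D.m_pos.ne', sub_zero] at h6
    apply D.w_inv_notMem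
    have : w⁻¹ = (g i)⁻¹ * (g i * w⁻¹) := by
      have := D.g_ne_zero i
      field_simp
    rw [this]
    exact V.mul_mem _ _ (D.g_inv i) h6
  have hne : (ρ - 1) * (ξ₀ * c i) ≠ 0 :=
    mul_ne_zero (sub_ne_zero.2 hρ1) (mul_ne_zero (D.root_ne_zero hξ) hc0)
  have hV : (ρ - 1) * (ξ₀ * c i) ∈ V :=
    V.mul_mem _ _ (sub_mem (D.root_mem hρ) V.one_mem)
      (V.mul_mem _ _ (D.root_mem hξ) (D.c_mem i))
  have h7 := D.val_eq_one hV hu hne
  rw [h7] at h4
  exact lt_irrefl _ h4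

/-- **COVER-SPLIT (3)**, ring-hom form: a ring endomorphism of `L` over `F` which maps the
maximal ideal of `W` into itself is the identity. -/
theorem eq_id_of_map_lt (D : CoverSplit V W w m ζ y g c) (σ : L →+* L)
    (hσF : ∀ a : F, σ (φ a) = φ a) (hσ : ∀ x, W.valuation x < 1 → W.valuation (σ x) < 1)
    (x : L) : σ x = x := by
  let σ' : L →ₐ[F] L := { σ with commutes' := hσF }
  have h : σ' = AlgHom.id F L := by
    refine AlgHom.ext_of_adjoin_eq_top D.gen ?_
    rintro _ ⟨i, rfl⟩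
    exact D.map_y_eq σ hσF hσ i
  have := congrArg (fun f : L →ₐ[F] L => f x) h
  exact this

/-- **COVER-SPLIT (3)**: an `F`-automorphism of `L` with `σ W = W` is the identity
(`V` splits completely in `L`). -/
theorem eq_one_of_map_eq (D : CoverSplit V W w m ζ y g c) (σ : L ≃ₐ[F] L)
    (hσ : ∀ x, x ∈ W ↔ σ x ∈ W) : σ = 1 := by
  ext x
  refine D.eq_id_of_map_lt (σ : L →+* L) (fun a => σ.commutes a) ?_ x
  intro z hz
  by_cases hz0 : z = 0
  · rw [hz0, map_zero, map_zero]; exact zero_lt_one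
  have hzW : z ∈ W := (W.valuation_le_one_iff _).1 hz.le
  have hzinv : z⁻¹ ∉ W := inv_notMem_of_val_lt_one W hz0 hz
  apply val_lt_one_of_inv_notMem
  show (σ z)⁻¹ ∉ W
  rw [← map_inv₀, ← hσ]
  exact hzinv

end CoverSplit

end Fermat.Agent.A2.H93
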