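import Mathlib.FieldTheory.Galois.Basic
import Mathlib.RingTheory.Ideal.Operations
import Fermat.Agent.A2.H93.CoverSplit

/-!
# Cell A2, route G, obligation C2 (COVER-SPLIT), part 2 — helper93 — Mathlib-only

In the setting of `CoverSplit` (file `CoverSplit.lean`), with `L / F` finite Galois:

* `CoverSplit.comap`            : `σ⁻¹ W` is again an extension of `V` (for `σ ∈ Gal(L/F)`);
* `CoverSplit.eq_of_centre_le`  : an extension `W` is determined by its centre on `V[y_i]`;
* `CoverSplit.exists_comap_eq`  : **transitivity**: any two extensions `W`, `W'` of `V` to `L`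
  are conjugate, `W' = σ⁻¹ W` (prime avoidance on `V[y_i]` + norm argument);
* `CoverSplit.comap_injective`  : `σ ↦ σ⁻¹ W` is injective (simple transitivity);
* `CoverSplit.finite_setOf`     : `V` has only finitely many extensions to `L`.

Together with `CoverSplit.lean` this is obligation C2 of `origin/helper12:coord/A2-wallG.md`
and the input of C7 (FIXED-SHEET).
-/

set_option autoImplicit false
set_option linter.style.haveILetI false

namespace Fermat.Agent.A2.H93

namespace CoverSplit

variable {F L : Type*} [Field F] [Field L] [Algebra F L]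
variable {V : ValuationSubring F} {W W' : ValuationSubring L} {w : F} {m : ℕ} {ζ : F}
  {ι : Type*} {y : ι → L} {g c : ι → F}

local notation "φ" => algebraMap F L

/-- Transport of an extension along an `F`-automorphism. -/
theorem comap (D : CoverSplit V W w m ζ y g c) (σ : L ≃ₐ[F] L) :
    CoverSplit V (W.comap (σ : L →+* L)) w m ζ y g c :=
  { D with
    ext := fun f => by
      rw [ValuationSubring.mem_comap]
      have : (σ : L →+* L) (φ f) = φ f := σ.commutes f
      rw [this]
      exact D.ext f }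

theorem val_w_mul_lt (D : CoverSplit V W w m ζ y g c) {t : L} (ht : t ∈ W) :
    W.valuation (φ w * t) < 1 := by
  rw [map_mul]
  calc W.valuation (φ w) * W.valuation t ≤ W.valuation (φ w) * 1 := by
        gcongr
        exact (W.valuation_le_one_iff _).2 ht
    _ = W.valuation (φ w) := mul_one _
    _ < 1 := D.val_w_lt

theorem val_lt_of_mul_inv_mem (D : CoverSplit V W w m ζ y g c) {a : F} (ha : a * w⁻¹ ∈ V) :
    W.valuation (φ a) < 1 := by
  have h : φ a = φ w * φ (a * w⁻¹) := by
    rw [← map_mul]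
    congr 1
    have := D.w_ne_zero
    field_simp
  rw [h]
  exact D.val_w_mul_lt ((D.ext _).2 ha)

/-- One inclusion of centres on `V[y_i]` implies the other. -/
theorem centre_le_of_centre_le (D : CoverSplit V W w m ζ y g c)
    (D' : CoverSplit V W' w m ζ y g c)
    (h : ∀ s ∈ ringB V y, W'.valuation s < 1 → W.valuation s < 1) :
    ∀ s ∈ ringB V y, W.valuation s < 1 → W'.valuation s < 1 := by
  intro s hs hlt
  obtain ⟨a, ha, t, ht, hst⟩ := D'.good_of_mem_ringB hs
  have hwt' : W'.valuation (φ w * t) < 1 := D'.val_w_mul_lt (D'.ringB'_le ht)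
  have hsa : s - φ a ∈ ringB V y := Subring.sub_mem _ hs (algebraMap_mem_ringB ha)
  have h1 : W.valuation (s - φ a) < 1 := by
    refine h _ hsa ?_
    have : s - φ a = φ w * t := by rw [hst]; ring
    rw [this]; exact hwt'
  have h2 : W.valuation (φ a) < 1 := by
    have : φ a = s + -(s - φ a) := by ring
    rw [this]
    refine lt_of_le_of_lt (Valuation.map_add _ _ _) (max_lt hlt ?_)
    rw [Valuation.map_neg]; exact h1
  have h3 : a * w⁻¹ ∈ V := D.mul_inv_mem_of_val_lt h2
  have h4 : W'.valuation (φ a) < 1 := D'.val_lt_of_mul_inv_mem h3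
  rw [hst]
  exact lt_of_le_of_lt (Valuation.map_add _ _ _) (max_lt h4 hwt')

theorem le_of_centre_le (D : CoverSplit V W w m ζ y g c) (D' : CoverSplit V W' w m ζ y g c)
    (h : ∀ s ∈ ringB V y, W'.valuation s < 1 → W.valuation s < 1) (x : L) (hx : x ∈ W) :
    x ∈ W' := by
  have hle : ringB' V W y ≤ W'.toSubring := by
    rw [ringB', Subring.closure_le]
    rintro z (hz | ⟨s, hs, hv, rfl⟩)
    · exact D'.ringB_le hz
    · -- `s` is a unit of `W`, hence of `W'`
      have hsW' : s ∈ W' := D'.ringB_le hs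
      have hle1 : W'.valuation s ≤ 1 := (W'.valuation_le_one_iff _).2 hsW'
      rcases lt_or_eq_of_le hle1 with hlt | heq
      · have := h s hs hlt
        rw [hv] at this
        exact absurd this (lt_irrefl _)
      · exact inv_mem_of_val_eq_one W' heq
  exact hle (D.mem_ringB' hx)

/-- An extension is determined by its centre on `V[y_i]`. -/
theorem eq_of_centre_le (D : CoverSplit V W w m ζ y g c) (D' : CoverSplit V W' w m ζ y g c)
    (h : ∀ s ∈ ringB V y, W'.valuation s < 1 → W.valuation s < 1) : W = W' := by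
  apply ValuationSubring.ext
  intro x
  exact ⟨D.le_of_centre_le D' h x,
    D'.le_of_centre_le D (D.centre_le_of_centre_le D' h) x⟩

section Centre

variable (V y) in
/-- The centre of a valuation subring `A ⊇ V[y_i]` on `V[y_i]`. -/
def centre (A : ValuationSubring L) (h : ringB V y ≤ A.toSubring) : Ideal (ringB V y) :=
  (IsLocalRing.maximalIdeal A).comap (Subring.inclusion h)

theorem mem_centre (A : ValuationSubring L) (h : ringB V y ≤ A.toSubring) (s : ringB V y) :
    s ∈ centre V y A h ↔ A.valuation (s : L) < 1 := by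
  rw [centre, Ideal.mem_comap, ValuationSubring.valuation_lt_one_iff]
  rfl

instance centre_isPrime (A : ValuationSubring L) (h : ringB V y ≤ A.toSubring) :
    (centre V y A h).IsPrime :=
  Ideal.comap_isPrime _ _

end Centre

/-- Simple transitivity: `σ ↦ σ⁻¹ W` is injective. -/
theorem comap_injective (D : CoverSplit V W w m ζ y g c) {σ τ : L ≃ₐ[F] L}
    (h : W.comap (σ : L →+* L) = W.comap (τ : L →+* L)) : σ = τ := by
  have h1 : τ * σ⁻¹ = 1 := by
    refine D.eq_one_of_map_eq (τ * σ⁻¹) (fun x => ?_)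
    have h2 : σ⁻¹ x ∈ W.comap (σ : L →+* L) ↔ σ⁻¹ x ∈ W.comap (τ : L →+* L) := by rw [h]
    rw [ValuationSubring.mem_comap, ValuationSubring.mem_comap] at h2
    have h3 : (σ : L →+* L) (σ⁻¹ x) = x := σ.apply_symm_apply x
    rw [h3] at h2
    exact h2
  have := mul_inv_eq_one.1 h1
  exact this.symm

section Galois

variable [FiniteDimensional F L] [IsGalois F L]

/-- **COVER-SPLIT (4), transitivity.**  Any two extensions of `V` to `L` are conjugate under
`Gal(L/F)`. -/
theorem exists_comap_eq (D : CoverSplit V W w m ζ y g c) (D' : CoverSplit V W' w m ζ y g c) :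
    ∃ σ : L ≃ₐ[F] L, W.comap (σ : L →+* L) = W' := by
  classical
  by_contra hcon
  push Not at hcon
  -- the centres
  have hB' : ringB V y ≤ W'.toSubring := D'.ringB_le
  have hBσ : ∀ σ : L ≃ₐ[F] L, ringB V y ≤ (W.comap (σ : L →+* L)).toSubring :=
    fun σ => (D.comap σ).ringB_le
  -- prime avoidance
  have hnot : ¬ ∃ σ ∈ (Finset.univ : Finset (L ≃ₐ[F] L)),
      centre V y W' hB' ≤ centre V y (W.comap (σ : L →+* L)) (hBσ σ) := by
    rintro ⟨σ, -, hle⟩
    apply hcon σ
    refine (D.comap σ).eq_of_centre_le D' ?_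
    intro s hs hlt
    have h1 : (⟨s, hs⟩ : ringB V y) ∈ centre V y W' hB' := (mem_centre _ _ _).2 hlt
    exact (mem_centre _ _ _).1 (hle h1)
  rw [← Ideal.subset_union_prime (1 : L ≃ₐ[F] L) 1 (fun σ _ _ _ => centre_isPrime _ _)] at hnot
  obtain ⟨x, hxP', hxσ⟩ := Set.not_subset.1 hnot
  have hxlt : W'.valuation (x : L) < 1 := (mem_centre _ _ _).1 hxP'
  have hxunit : ∀ σ : L ≃ₐ[F] L, W.valuation (σ (x : L)) = 1 := by
    intro σ
    have h1 : x ∉ centre V y (W.comap (σ : L →+* L)) (hBσ σ) := by
      intro h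
      apply hxσ
      simp only [Set.mem_iUnion]
      exact ⟨σ, Finset.mem_coe.2 (Finset.mem_univ σ), h⟩
    have hxW : σ (x : L) ∈ W := hBσ σ x.2
    have hle : W.valuation (σ (x : L)) ≤ 1 := (W.valuation_le_one_iff _).2 hxW
    rcases lt_or_eq_of_le hle with hlt | heq
    · exfalso
      apply h1
      rw [mem_centre]
      -- valuations of `W.comap σ` and `W` compare through membership
      have hx0 : (x : L) ≠ 0 := by
        intro h0
        rw [h0, map_zero, map_zero] at hlt
        -- fine: `x = 0` lies in every ideal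
        exact h1 (by
          have : x = 0 := Subtype.ext h0
          rw [this]; exact Ideal.zero_mem _)
      apply val_lt_one_of_inv_notMem
      rw [ValuationSubring.mem_comap]
      have hσx0 : σ (x : L) ≠ 0 := by
        intro h0
        exact hx0 (σ.injective (by rw [h0, map_zero]))
      have := inv_notMem_of_val_lt_one W hσx0 hlt
      show (σ : L →+* L) ((x : L)⁻¹) ∉ W
      rw [map_inv₀]
      exact this
    · exact heq
  -- the norm
  obtain ⟨n, hn⟩ : ∃ n : F, φ n = ∏ σ : L ≃ₐ[F] L, σ (x : L) := by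
    have hfix : ∀ τ : L ≃ₐ[F] L, τ (∏ σ : L ≃ₐ[F] L, σ (x : L)) = ∏ σ : L ≃ₐ[F] L, σ (x : L) := by
      intro τ
      rw [map_prod]
      exact Fintype.prod_equiv (Equiv.mulLeft τ) _ _ (fun σ => rfl)
    have hbot := (IsGalois.mem_bot_iff_fixed (F := F) (E := L) _).2 hfix
    rw [IntermediateField.mem_bot] at hbot
    exact hbot
  -- `n` is a unit at `W`
  have hnW : W.valuation (φ n) = 1 := by
    rw [hn, map_prod]
    exact Finset.prod_eq_one (fun σ _ => hxunit σ)
  -- `n` is a non-unit at `W'`
  have hnW' : W'.valuation (φ n) < 1 := by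
    rw [hn, ← Finset.mul_prod_erase Finset.univ (fun σ : L ≃ₐ[F] L => σ (x : L))
      (Finset.mem_univ (1 : L ≃ₐ[F] L)), map_mul]
    have h1 : W'.valuation ((1 : L ≃ₐ[F] L) (x : L)) < 1 := hxlt
    have h2 : W'.valuation (∏ σ ∈ Finset.univ.erase (1 : L ≃ₐ[F] L), σ (x : L)) ≤ 1 := by
      rw [W'.valuation_le_one_iff]
      refine Subring.prod_mem W'.toSubring (fun σ _ => ?_)
      exact (D'.comap σ).ringB_le x.2
    calc W'.valuation ((1 : L ≃ₐ[F] L) (x : L)) *
          W'.valuation (∏ σ ∈ Finset.univ.erase (1 : L ≃ₐ[F] L), σ (x : L))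
        ≤ W'.valuation ((1 : L ≃ₐ[F] L) (x : L)) * 1 := by gcongr
      _ = W'.valuation ((1 : L ≃ₐ[F] L) (x : L)) := mul_one _
      _ < 1 := h1
  have h3 : n * w⁻¹ ∈ V := D'.mul_inv_mem_of_val_lt hnW'
  have h4 := D.val_lt_of_mul_inv_mem h3
  rw [hnW] at h4
  exact lt_irrefl _ h4

/-- **COVER-SPLIT (5)**: `V` has only finitely many extensions to `L`. -/
theorem finite_setOf (V : ValuationSubring F) (w : F) (m : ℕ) (ζ : F) (y : ι → L)
    (g c : ι → F) : {W : ValuationSubring L | CoverSplit V W w m ζ y g c}.Finite := by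
  by_cases hne : ∃ W : ValuationSubring L, CoverSplit V W w m ζ y g c
  · obtain ⟨W, D⟩ := hne
    refine (Set.finite_range (fun σ : L ≃ₐ[F] L => W.comap (σ : L →+* L))).subset ?_
    intro W' D'
    obtain ⟨σ, hσ⟩ := D.exists_comap_eq D'
    exact ⟨σ, hσ⟩
  · have : {W : ValuationSubring L | CoverSplit V W w m ζ y g c} = ∅ :=
      Set.eq_empty_of_forall_notMem (fun W D => hne ⟨W, D⟩)
    rw [this]
    exact Set.finite_empty

end Galois

end CoverSplit

end Fermat.Agent.A2.H93
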