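import Fermat.Agent.A2.H12.GLemmas
import Fermat.Agent.A2.H93.CoverSplitTrans
import Mathlib.RingTheory.Valuation.LocalSubring
import Mathlib.FieldTheory.IntermediateField.Adjoin.Algebra

/-!
# Cell A2, route G, leaf SHEETS (core) — helper93

`sheetsConclusion_of_gen` : the conclusion `Fermat.Agent.A2.H12.SheetsConclusion L w x` of the leaf
**SHEETS** of `H12.algG`, for a finite Galois cover `L = F(y_i)`, `y_i ^ m = g_i`, where every
`g_i` is a UNIT `m`-th power modulo every sheet of `F` (`SplitUnitAt`, i.e. `H12.SplitAt` with the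
junk value `u = 0` excluded), from the following hypotheses on the BASE field `F` only
(`SheetsBase`):

* `finite` : `F` has finitely many sheets;
* `unif`   : `w` generates the maximal ideal of every sheet of `F`;
* `disc`   : every sheet of `F` is discrete (`∀ f, ∃ k, f * w ^ k ∈ V`);

together with `w ≠ 0`, `R → F` injective, `¬ w ∣ m`, `0 < m` and a primitive `m`-th root of unity
in `R`.  `SheetsBase.of_discrete` produces `unif` and `disc` from the field `discrete` of
`H12.BaseConclusion`.

The proof is an adapter on `CoverSplit` (files `CoverSplit.lean`, `CoverSplitTrans.lean`); the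
existence of a sheet of `L` over a sheet of `F` is Chevalley's extension theorem (Mathlib).

NB. `H12.SplitAt m V g` as frozen in `H12/GSpec.lean` holds for every `g ∈ 𝔪_V` (take `u = 0`),
so `H12.IsKummerSplit` allows covers ramified at the sheets, for which `SheetsConclusion` is false.
-/

set_option autoImplicit false
set_option linter.style.haveILetI false

namespace Fermat.Agent.A2.H93

open Polynomial
open Fermat.Agent.A2.H12

universe u

section Base

variable {R : Type u} [CommRing R] {F : Type u} [Field F] [Algebra R F]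

/-- `g` is the `m`-th power of a UNIT of `V` modulo the maximal ideal of `V`
(`H12.SplitAt` with `u ≠ 0`). -/
def SplitUnitAt (m : ℕ) (V : ValuationSubring F) (g : F) : Prop :=
  ∃ u : F, u ≠ 0 ∧ u ∈ V ∧ u⁻¹ ∈ V ∧ g - u ^ m ∈ V.nonunits

theorem SplitUnitAt.splitAt {m : ℕ} {V : ValuationSubring F} {g : F} (h : SplitUnitAt m V g) :
    SplitAt m V g := by
  obtain ⟨u, -, h1, h2, h3⟩ := h
  exact ⟨u, h1, h2, h3⟩

/-- `SplitAt` at a unit `g` of `V` is `SplitUnitAt`. -/
theorem splitUnitAt_of_splitAt {m : ℕ} (hm : 0 < m) {V : ValuationSubring F} {g : F}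
    (hg0 : g ≠ 0) (hg : g⁻¹ ∈ V) (h : SplitAt m V g) : SplitUnitAt m V g := by
  obtain ⟨u, h1, h2, h3⟩ := h
  refine ⟨u, ?_, h1, h2, h3⟩
  rintro rfl
  rw [zero_pow hm.ne', sub_zero, ValuationSubring.mem_nonunits_iff_or] at h3
  rcases h3 with h3 | h3
  · exact hg0 h3
  · exact h3 hg

/-- The hypotheses on the sheets of the base field `F` used by the leaf SHEETS. -/
structure SheetsBase (w : R) (x : F) : Prop where
  /-- `F` has finitely many sheets -/
  finite : {V : ValuationSubring F | IsSheet w x V}.Finite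
  /-- `w` generates the maximal ideal of every sheet of `F` -/
  unif : ∀ V : ValuationSubring F, IsSheet w x V →
    ∀ a ∈ V.nonunits, ∃ b ∈ V, a = algebraMap R F w * b
  /-- every sheet of `F` is discrete -/
  disc : ∀ V : ValuationSubring F, IsSheet w x V →
    ∀ f : F, ∃ k : ℕ, f * algebraMap R F w ^ k ∈ V

/-- `SheetsBase` from finiteness and the field `discrete` of `H12.BaseConclusion`. -/
theorem SheetsBase.of_discrete {w : R} {x : F}
    (hfin : {V : ValuationSubring F | IsSheet w x V}.Finite)
    (hdisc : ∀ V : ValuationSubring F, IsSheet w x V → ∀ f : F, f ≠ 0 →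
      ∃ (n : ℤ) (u : F), u ∈ V ∧ u⁻¹ ∈ V ∧ f = algebraMap R F w ^ n * u) :
    SheetsBase w x := by
  refine ⟨hfin, ?_, ?_⟩
  · intro V hV a ha
    by_cases ha0 : a = 0
    · exact ⟨0, V.zero_mem, by rw [ha0, mul_zero]⟩
    obtain ⟨n, u, hu, hu', hau⟩ := hdisc V hV a ha0
    have hw : algebraMap R F w ∈ V.nonunits := hV.2.2.1
    have hwV : algebraMap R F w ∈ V := ValuationSubring.nonunits_subset hw
    have hu0 : u ≠ 0 := by
      rintro rfl
      exact ha0 (by rw [hau, mul_zero])
    have hw0 : algebraMap R F w ≠ 0 := by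
      intro h0
      rw [h0] at hau
      rcases eq_or_ne n 0 with hn | hn
      · rw [hn, zpow_zero, one_mul] at hau
        rw [hau, ValuationSubring.mem_nonunits_iff_or] at ha
        rcases ha with ha | ha
        · exact hu0 ha
        · exact ha hu'
      · rw [zero_zpow n hn, zero_mul] at hau
        exact ha0 hau
    -- `n ≥ 1`
    have hn : 1 ≤ n := by
      by_contra hcon
      rw [not_le] at hcon
      have hn0 : 0 ≤ -n := by omega
      obtain ⟨k, hk⟩ := Int.eq_ofNat_of_zero_le hn0
      have h1 : a⁻¹ = algebraMap R F w ^ k * u⁻¹ := by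
        rw [hau, mul_inv, ← zpow_neg, hk, zpow_natCast]
      have h2 : a⁻¹ ∈ V := by
        rw [h1]
        exact V.mul_mem _ _ (pow_mem hwV k) hu'
      rw [ValuationSubring.mem_nonunits_iff_or] at ha
      rcases ha with ha | ha
      · exact ha0 ha
      · exact ha h2
    obtain ⟨k, hk⟩ := Int.eq_ofNat_of_zero_le (show 0 ≤ n - 1 by omega)
    refine ⟨algebraMap R F w ^ k * u, V.mul_mem _ _ (pow_mem hwV k) hu, ?_⟩
    have hn' : n = (k : ℤ) + 1 := by omega
    rw [hau, hn', zpow_add_one₀ hw0, zpow_natCast]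
    ring
  · intro V hV f
    by_cases hw0 : algebraMap R F w = 0
    · exact ⟨1, by rw [hw0, pow_one, mul_zero]; exact V.zero_mem⟩
    by_cases hf0 : f = 0
    · exact ⟨0, by rw [hf0, zero_mul]; exact V.zero_mem⟩
    obtain ⟨n, u, hu, hu', hfu⟩ := hdisc V hV f hf0
    have hw : algebraMap R F w ∈ V.nonunits := hV.2.2.1
    have hwV : algebraMap R F w ∈ V := ValuationSubring.nonunits_subset hw
    obtain ⟨j, hj⟩ := Int.eq_ofNat_of_zero_le (show 0 ≤ n + (n.natAbs : ℤ) by omega)
    refine ⟨n.natAbs, ?_⟩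
    have h1 : f * algebraMap R F w ^ n.natAbs = algebraMap R F w ^ j * u := by
      rw [hfu, ← zpow_natCast (algebraMap R F w) j, ← hj, zpow_add₀ hw0, zpow_natCast]
      ring
    rw [h1]
    exact V.mul_mem _ _ (pow_mem hwV j) hu

end Base

section Tower

variable {R : Type u} [CommRing R] {F : Type u} [Field F] [Algebra R F]
variable {L : Type u} [Field L] [Algebra F L] [Algebra R L] [IsScalarTower R F L]

/-- A valuation subring of `L` lying over a sheet of `F` is a sheet of `L`. -/
theorem isSheet_of_comap_eq {w : R} {x : F} {V : ValuationSubring F} (hV : IsSheet w x V)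
    {W : ValuationSubring L} (hWV : W.comap (algebraMap F L) = V) :
    IsSheet w (algebraMap F L x) W := by
  have hle : ∀ f ∈ V, algebraMap F L f ∈ W := by
    intro f hf
    rw [← hWV] at hf
    exact hf
  refine ⟨?_, ?_, ?_, ?_⟩
  · intro r
    rw [IsScalarTower.algebraMap_apply R F L]
    exact hle _ (hV.1 r)
  · exact hle _ hV.2.1
  · rw [IsScalarTower.algebraMap_apply R F L, ← mem_nonunits_comap, hWV]
    exact hV.2.2.1
  · intro P hP
    rw [aeval_algebraMap_apply, ← map_inv₀]
    exact hle _ (hV.2.2.2 P hP)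

/-- **Chevalley**: a valuation subring `V` of `F` whose maximal ideal is generated by `w` extends
to `L`. -/
theorem exists_comap_eq_of_unif (V : ValuationSubring F) (w : F) (hw : w ∈ V.nonunits)
    (hunif : ∀ a ∈ V.nonunits, ∃ b ∈ V, a = w * b) :
    ∃ W : ValuationSubring L, W.comap (algebraMap F L) = V := by
  classical
  let A : Subring L := V.toSubring.map (algebraMap F L)
  have hwA : algebraMap F L w ∈ A :=
    ⟨w, ValuationSubring.nonunits_subset hw, rfl⟩
  let I : Ideal A := Ideal.span {⟨algebraMap F L w, hwA⟩}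
  have hI : I ≠ ⊤ := by
    intro h
    rw [Ideal.eq_top_iff_one, Ideal.mem_span_singleton'] at h
    obtain ⟨⟨a, v, hv, rfl⟩, ha⟩ := h
    have h1 : algebraMap F L v * algebraMap F L w = 1 := congrArg Subtype.val ha
    rw [← map_mul] at h1
    have h2 : v * w = 1 := (algebraMap F L).injective (by rw [h1, map_one])
    have h3 := mul_mem_nonunits V hw hv
    rw [h2] at h3
    exact one_not_mem_nonunits V h3
  obtain ⟨B, hAB, hIB⟩ := Ideal.image_subset_nonunits_valuationSubring I hI
  have hwB : algebraMap F L w ∈ B.nonunits :=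
    hIB ⟨⟨algebraMap F L w, hwA⟩, Ideal.subset_span rfl, rfl⟩
  refine ⟨B, ?_⟩
  ext f
  rw [ValuationSubring.mem_comap]
  constructor
  · intro hf
    by_contra hfV
    have hinv : f⁻¹ ∈ V.nonunits := by
      rw [ValuationSubring.inv_mem_nonunits_iff]
      exact Or.inr hfV
    obtain ⟨b, hb, hfb⟩ := hunif _ hinv
    have hf0 : f ≠ 0 := by
      rintro rfl
      exact hfV V.zero_mem
    have h1 : algebraMap F L w * (algebraMap F L b * algebraMap F L f) = 1 := by
      rw [← map_mul, ← map_mul, ← mul_assoc, ← hfb, inv_mul_cancel₀ hf0, map_one]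
    have hbB : algebraMap F L b ∈ B := hAB ⟨b, hb, rfl⟩
    have h2 := mul_mem_nonunits B hwB (B.mul_mem _ _ hbB hf)
    rw [mul_comm, h1] at h2
    exact one_not_mem_nonunits B h2
  · intro hf
    exact hAB ⟨f, hf, rfl⟩

end Tower

section Sheets

variable {R : Type u} [CommRing R] {F : Type u} [Field F] [Algebra R F]
variable {L : Type u} [Field L] [Algebra F L] [Algebra R L] [IsScalarTower R F L]

omit [Algebra R L] [IsScalarTower R F L] in
/-- The `CoverSplit` datum of a valuation subring `W` of `L` over a sheet `V` of `F`. -/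
theorem coverSplit_of_sheet {w : R} {x : F} {m : ℕ} (hw0 : w ≠ 0)
    (hinj : Function.Injective (algebraMap R F)) (hm : 0 < m) (hwm : ¬ w ∣ (m : R))
    {ζ : R} (hζ : IsPrimitiveRoot ζ m) (hB : SheetsBase w x)
    [FiniteDimensional F L]
    {n : ℕ} {y : Fin n → L} {g : Fin n → F} (hg0 : ∀ i, g i ≠ 0)
    (hpow : ∀ i, y i ^ m = algebraMap F L (g i))
    (hgen : IntermediateField.adjoin F (Set.range y) = ⊤)
    {V : ValuationSubring F} (hV : IsSheet w x V)
    {c : Fin n → F}
    (hc : ∀ i, c i ≠ 0 ∧ c i ∈ V ∧ (c i)⁻¹ ∈ V ∧ g i - c i ^ m ∈ V.nonunits)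
    {W : ValuationSubring L} (hWV : W.comap (algebraMap F L) = V) :
    CoverSplit V W (algebraMap R F w) m (algebraMap R F ζ) y g c := by
  have hwF0 : algebraMap R F w ≠ 0 := fun h => hw0 (hinj (by rw [h, map_zero]))
  have hunif : ∀ f ∈ V.nonunits, f * (algebraMap R F w)⁻¹ ∈ V := by
    intro f hf
    obtain ⟨b, hb, rfl⟩ := hB.unif V hV f hf
    rw [mul_comm, ← mul_assoc, inv_mul_cancel₀ hwF0, one_mul]
    exact hb
  have hgV : ∀ i, g i ∈ V := by
    intro i
    have : g i = c i ^ m + (g i - c i ^ m) := by ring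
    rw [this]
    exact V.add_mem _ _ (pow_mem (hc i).2.1 m) (ValuationSubring.nonunits_subset (hc i).2.2.2)
  have hvc : ∀ i, V.valuation (c i ^ m) = 1 := by
    intro i
    rw [map_pow, val_eq_one_of_mem_of_inv_mem V (hc i).1 (hc i).2.1 (hc i).2.2.1, one_pow]
  have hvg : ∀ i, V.valuation (g i) = 1 := by
    intro i
    have h1 : V.valuation (g i - c i ^ m) < V.valuation (c i ^ m) := by
      rw [hvc i]
      exact (ValuationSubring.mem_nonunits_iff V).1 (hc i).2.2.2
    have : g i = c i ^ m + (g i - c i ^ m) := by ring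
    rw [this, Valuation.map_add_eq_of_lt_left _ h1, hvc i]
  refine
    { ext := fun f => by rw [← hWV, ValuationSubring.mem_comap]
      w_inv_notMem := ?_
      w_gen := ?_
      w_disc := hB.disc V hV
      zeta := hζ.map_of_injective hinj
      m_pos := hm
      m_inv := ?_
      pow_eq := hpow
      g_mem := hgV
      g_ne_zero := hg0
      g_inv := fun i => inv_mem_of_val_eq_one V (hvg i)
      c_mem := fun i => (hc i).2.1
      cong := fun i => hunif _ (hc i).2.2.2
      gen := ?_ }
  · intro h
    have h1 := hV.2.2.1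
    rw [ValuationSubring.mem_nonunits_iff_or] at h1
    rcases h1 with h1 | h1
    · exact hwF0 h1
    · exact h1 h
  · intro f hf hf'
    refine hunif f ?_
    rw [ValuationSubring.mem_nonunits_iff_or]
    exact Or.inr hf'
  · have := hV.2.2.2 (C (m : R)) ⟨0, by rw [coeff_C_zero]; exact hwm⟩
    rw [aeval_C, map_natCast] at this
    exact this
  · have h1 := IntermediateField.adjoin_toSubalgebra_of_isAlgebraic (F := F) (S := Set.range y)
      (fun z _ => Algebra.IsAlgebraic.isAlgebraic z)
    rw [← h1, hgen, IntermediateField.top_toSubalgebra]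

/-- **Leaf SHEETS, core.**  For a finite Galois Kummer cover `L = F(y_i)`, `y_i ^ m = g_i`,
with every `g_i` a unit `m`-th power modulo every sheet of `F`. -/
theorem sheetsConclusion_of_gen {w : R} {x : F} {m : ℕ} (hw0 : w ≠ 0)
    (hinj : Function.Injective (algebraMap R F)) (hm : 0 < m) (hwm : ¬ w ∣ (m : R))
    (hroot : ∃ ζ : R, IsPrimitiveRoot ζ m) (hB : SheetsBase w x)
    [FiniteDimensional F L] [IsGalois F L]
    {n : ℕ} (y : Fin n → L) (g : Fin n → F) (hg0 : ∀ i, g i ≠ 0)
    (hpow : ∀ i, y i ^ m = algebraMap F L (g i))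
    (hgen : IntermediateField.adjoin F (Set.range y) = ⊤)
    (hsplit : ∀ i, ∀ V : ValuationSubring F, IsSheet w x V → SplitUnitAt m V (g i)) :
    SheetsConclusion L w x := by
  classical
  obtain ⟨ζ, hζ⟩ := hroot
  -- the chosen residues
  have hex : ∀ V : ValuationSubring F, IsSheet w x V → ∃ c : Fin n → F,
      ∀ i, c i ≠ 0 ∧ c i ∈ V ∧ (c i)⁻¹ ∈ V ∧ g i - c i ^ m ∈ V.nonunits := by
    intro V hV
    choose c hc using fun i => hsplit i V hV
    exact ⟨c, hc⟩
  have hwL : algebraMap R L w = algebraMap F L (algebraMap R F w) :=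
    IsScalarTower.algebraMap_apply R F L w
  have key : ∀ W : ValuationSubring L, IsSheet w (algebraMap F L x) W →
      ∃ c : Fin n → F, ∀ W' : ValuationSubring L,
        W'.comap (algebraMap F L) = W.comap (algebraMap F L) →
        CoverSplit (W.comap (algebraMap F L)) W' (algebraMap R F w) m (algebraMap R F ζ) y g c := by
    intro W hW
    have hV := IsSheet.comap_algebraMap hW
    obtain ⟨c, hc⟩ := hex _ hV
    exact ⟨c, fun W' hW' => coverSplit_of_sheet hw0 hinj hm hwm hζ hB hg0 hpow hgen hV hc hW'⟩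
  refine ⟨?_, ?_, ?_, ?_, ?_, ?_⟩
  · -- finite
    refine Set.Finite.of_finite_fibers (fun W : ValuationSubring L => W.comap (algebraMap F L))
      (hB.finite.subset ?_) ?_
    · rintro V ⟨W, hW, rfl⟩
      exact IsSheet.comap_algebraMap hW
    · rintro V ⟨W, hW, rfl⟩
      obtain ⟨c, hc⟩ := key W hW
      refine (CoverSplit.finite_setOf (W.comap (algebraMap F L)) (algebraMap R F w) m
        (algebraMap R F ζ) y g c).subset ?_
      rintro W' ⟨-, hW'⟩
      exact hc W' hW'
  · -- exists_over
    intro V hV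
    obtain ⟨W, hW⟩ := exists_comap_eq_of_unif (L := L) V (algebraMap R F w) hV.2.2.1
      (hB.unif V hV)
    exact ⟨W, isSheet_of_comap_eq hV hW, hW⟩
  · -- unif
    intro W hW a ha
    obtain ⟨c, hc⟩ := key W hW
    have D := hc W rfl
    by_cases ha0 : a = 0
    · exact ⟨0, W.zero_mem, by rw [ha0, mul_zero]⟩
    have ha' : a⁻¹ ∉ W := by
      rw [ValuationSubring.mem_nonunits_iff_or] at ha
      exact ha.resolve_left ha0
    refine ⟨_, D.mul_inv_mem (ValuationSubring.nonunits_subset ha) ha', ?_⟩
    rw [hwL, mul_comm, mul_assoc, inv_mul_cancel₀ D.φw_ne_zero, mul_one]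
  · -- resdeg
    intro W hW b hb
    obtain ⟨c, hc⟩ := key W hW
    have D := hc W rfl
    obtain ⟨a, -, ha⟩ := D.exists_sub_mem hb
    refine ⟨a, ?_⟩
    have h1 : b - algebraMap F L a =
        (b - algebraMap F L a) * (algebraMap F L (algebraMap R F w))⁻¹ *
          algebraMap R L w := by
      rw [hwL, mul_assoc, inv_mul_cancel₀ D.φw_ne_zero, mul_one]
    rw [h1]
    exact mul_mem_nonunits W hW.2.2.1 ha
  · -- trans
    intro W W' hW hW' hWW'
    obtain ⟨c, hc⟩ := key W hW
    have D := hc W rfl
    have D' := hc W' hWW'.symm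
    obtain ⟨σ, hσ⟩ := D'.exists_comap_eq D
    refine ⟨σ, fun b => ?_⟩
    rw [← hσ, ValuationSubring.mem_comap]
    rfl
  · -- free
    intro W hW σ hσ
    obtain ⟨c, hc⟩ := key W hW
    exact (hc W rfl).eq_one_of_map_eq σ hσ

end Sheets

end Fermat.Agent.A2.H93
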